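import Mathlib
import Fermat.Agent.LT.T2.Spec

/-!
# Row LT, tower T2, leaf T2.02d (`ConvComm`: convolutions by spherical test functions commute):
# CUT into sub-leaves (helper724, owner of registry row 976)

OFF-MAIN.  Vocabulary: `LT/T2/Spec.lean` (helper130, v3, sha256 b934629a), `LT/T1/Spec.lean`
(helper54, e8ae48d6), `LT/H556/A0.lean` (66d3374a), byte-identical copies.  Definitions, Props and
the PROVED top `convComm_of_leaves724`; nothing is assumed.

Gelfand's trick with the anti-involution `ι(g) = adjugate g = det g • g⁻¹` of `GL₂(𝔸_K)`: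

* `ConvKerC724`   (FUBINI)  `R(f₁) R(f₂) φ (x) = ∫ φ(x g) (f₁ ⋆ f₂)(g) dg`,
                            `(f₁ ⋆ f₂)(g) = ∫ f₁(h) f₂(h⁻¹ g) dh`  (`convKer724`);
* `ConvShapeC724` (SHAPE)   `f₁ ⋆ f₂` is bi-invariant under `U(𝔫)` and the `K_w`, and supported in
                            `U(𝔫)_v` at the places `v ∣ 𝔫` (`IsSphShape724`);
* `AdjMeasC724`   (MEASURE) every Haar measure of `GL₂(𝔸_K)` is invariant under `ι`
                            (`ι ∘ inv` is an involutive automorphism, so its modulus is `1`;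
                            `T1.UnimodC` for `inv`);
* `ConvSwapC724`  (SWAP)    `(f₁ ⋆ f₂)(ι g) = ((f₂ ∘ ι) ⋆ (f₁ ∘ ι))(g)`;
* `DoubleCosetC724` (ALGEBRA) `ι(g) ∈ 𝒦 g 𝒦` for every `g` which lies in `U(𝔫)_v` at the places
                            `v ∣ 𝔫`; `𝒦 = kGroup724 𝔫` is the subgroup GENERATED by `U(𝔫)` and the
                            `K_w` (`w ∣ ∞`).  It is cut into `LocFinC724` (valuation rings),
                            `LocCpxC724` (`U(2)`), `LocRealC724` (`SO(2)`), all three over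
                            Mathlib only, and `GlueC724` (adelic elements from local components).

    convComm_of_leaves724 :
      ConvKerC724 K → ConvShapeC724 K → AdjMeasC724 K → ConvSwapC724 K →
      LocFinC724 K → LocCpxC724 → LocRealC724 → GlueC724 K →
        (T1.T1Out K → ∀ 𝔫 ≠ ⊥, ∀ F f₁ f₂ φ, IsSphTestFn 𝔫 f₁ → IsSphTestFn 𝔫 f₂ → IsCuspFn 𝔫 φ →
          conv F f₁ (conv F f₂ φ) = conv F f₂ (conv F f₁ φ))

which is the last clause of `T2.ConvCusp` (= `ConvComm228` of helper228's cut of T2.02).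
-/

set_option autoImplicit false

open IsDedekindDomain NumberField MeasureTheory AutomorphicForm
open Fermat.Agent.LT.H556.A0

noncomputable section

namespace Fermat.Agent.LT.T2.H724

open Fermat.Agent.LT.T2

variable {K : Type} [Field K] [NumberField K]

attribute [local instance] Fermat.Agent.LT.T2.borelG

/-! ## 1. Vocabulary -/

/-- The anti-involution `ι(g) = adjugate g` (`= det g • g⁻¹`) of `GL₂(𝔸_K)`. -/
def adjG724 (g : G K) : G K :=
  ⟨(g : Matrix (Fin 2) (Fin 2) (Adl K)).adjugate,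
    ((g⁻¹ : G K) : Matrix (Fin 2) (Fin 2) (Adl K)).adjugate,
    by rw [← Matrix.adjugate_mul_distrib, ← Units.val_mul, inv_mul_cancel, Units.val_one,
      Matrix.adjugate_one],
    by rw [← Matrix.adjugate_mul_distrib, ← Units.val_mul, mul_inv_cancel, Units.val_one,
      Matrix.adjugate_one]⟩

theorem adjG724_val (g : G K) :
    ((adjG724 g : G K) : Matrix (Fin 2) (Fin 2) (Adl K))
      = (g : Matrix (Fin 2) (Fin 2) (Adl K)).adjugate := rfl

/-- `ι` is an anti-homomorphism. -/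
theorem adjG724_mul (g h : G K) : adjG724 (g * h) = adjG724 h * adjG724 g := by
  apply Units.ext
  rw [Units.val_mul, adjG724_val, adjG724_val, adjG724_val, Units.val_mul,
    Matrix.adjugate_mul_distrib]

/-- `ι` is an involution (`2 × 2` matrices). -/
theorem adjG724_adjG724 (g : G K) : adjG724 (adjG724 g) = g := by
  apply Units.ext
  rw [adjG724_val, adjG724_val, Matrix.adjugate_adjugate _ (by simp)]
  simp

theorem adjG724_one : adjG724 (1 : G K) = 1 := by
  apply Units.ext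
  rw [adjG724_val, Units.val_one, Matrix.adjugate_one]

theorem adjG724_inv (g : G K) : adjG724 g⁻¹ = (adjG724 g)⁻¹ := by
  rw [eq_inv_iff_mul_eq_one, ← adjG724_mul, mul_inv_cancel, adjG724_one]

/-- `g` lies in `U(𝔫)_v` at every place `v ∣ 𝔫` (the support condition of `T2.IsSphTestFn`). -/
def IsBadUnit724 (𝔫 : Ideal (𝓞 K)) (g : G K) : Prop :=
  ∀ v : HeightOneSpectrum (𝓞 K), v.asIdeal ∣ 𝔫 →
    ∀ i j : Fin 2, (finComp v g - 1) i j ∈ idealClosure 𝔫 v ∧
      (finComp v g⁻¹ - 1) i j ∈ idealClosure 𝔫 v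

/-- The SHAPE of a spherical test function: bi-invariance under `U(𝔫)` and the compact groups at
the infinite places, support in `U(𝔫)_v` at the places `v ∣ 𝔫`.  No regularity. -/
structure IsSphShape724 (𝔫 : Ideal (𝓞 K)) (f : G K → ℂ) : Prop where
  level_right : ∀ u : G K, InLevelGroup 𝔫 u → ∀ g : G K, f (g * u) = f g
  level_left : ∀ u : G K, InLevelGroup 𝔫 u → ∀ g : G K, f (u * g) = f g
  arch_right : ∀ (w : InfinitePlace K) (k : G K), IsArchCompact w k → ∀ g : G K, f (g * k) = f g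
  arch_left : ∀ (w : InfinitePlace K) (k : G K), IsArchCompact w k → ∀ g : G K, f (k * g) = f g
  bad_unit : ∀ g : G K, f g ≠ 0 → IsBadUnit724 𝔫 g

theorem shape_of_sphTest724 {𝔫 : Ideal (𝓞 K)} {f : G K → ℂ} (h : IsSphTestFn 𝔫 f) :
    IsSphShape724 𝔫 f :=
  ⟨h.test.level_right, h.test.level_left, h.test.arch_right, h.test.arch_left, h.bad_unit⟩

/-- The subgroup `𝒦` of `GL₂(𝔸_K)` generated by `U(𝔫)` and the compact groups `K_w`, `w ∣ ∞`. -/
def kGroup724 (𝔫 : Ideal (𝓞 K)) : Subgroup (G K) :=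
  Subgroup.closure ({u | InLevelGroup 𝔫 u} ∪ {k | ∃ w : InfinitePlace K, IsArchCompact w k})

/-- The convolution kernel `(f₁ ⋆ f₂)(g) = ∫ f₁(h) f₂(h⁻¹ g) dμ(h)`. -/
def convKer724 (F : Frame K) (f₁ f₂ : G K → ℂ) (g : G K) : ℂ :=
  ∫ h, f₁ h * f₂ (h⁻¹ * g) ∂F.μ

/-! ## 2. The sub-leaves -/

variable (K)

/-- **T2.02d.1 FUBINI.**  `R(f₁) R(f₂) φ (x) = ∫ φ(x g) (f₁ ⋆ f₂)(g) dg` for continuous
compactly supported `f₁`, `f₂` and bounded continuous `φ` (left invariance of the Haar measure,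
Fubini on `G K × G K`; `G K` is locally compact and second countable by `T1.LocCompC`). -/
def ConvKerC724 : Prop :=
  T1.LocCompC K → ∀ (F : Frame K) (f₁ f₂ φ : G K → ℂ),
    Continuous f₁ → HasCompactSupport f₁ → Continuous f₂ → HasCompactSupport f₂ →
    Continuous φ → (∃ C : ℝ, ∀ g : G K, ‖φ g‖ ≤ C) →
    ∀ x : G K, conv F f₁ (conv F f₂ φ) x = ∫ g, φ (x * g) * convKer724 F f₁ f₂ g ∂F.μ

/-- **T2.02d.2 SHAPE.**  The convolution kernel of two functions of spherical shape has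
spherical shape (left invariance of the Haar measure; `U(𝔫)_v` is a group: `idealClosure 𝔫 v` is
closed under addition and multiplication). -/
def ConvShapeC724 : Prop :=
  T1.LocCompC K → ∀ (𝔫 : Ideal (𝓞 K)) (F : Frame K) (f₁ f₂ : G K → ℂ),
    IsSphShape724 𝔫 f₁ → IsSphShape724 𝔫 f₂ → IsSphShape724 𝔫 (convKer724 F f₁ f₂)

/-- **T2.02d.3 MEASURE.**  Every Haar measure of `GL₂(𝔸_K)` is invariant under `ι`:
`ι = τ ∘ inv`, `τ(g) = (det g)⁻¹ • g` is a continuous involutive automorphism, so its modulus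
`c` satisfies `c² = 1` (Mathlib `mulEquivHaarChar_trans`); `inv` preserves the Haar measures of
a unimodular group (`T1.UnimodC`). -/
def AdjMeasC724 : Prop :=
  T1.LocCompC K → T1.UnimodC K → ∀ μ : Measure (G K), μ.IsHaarMeasure →
    MeasurePreserving (adjG724 (K := K)) μ μ

/-- **T2.02d.4 SWAP.**  If the Haar measure is invariant under `ι` and under `inv`, then
`(f₁ ⋆ f₂)(ι g) = ((f₂ ∘ ι) ⋆ (f₁ ∘ ι))(g)` for ALL functions `f₁`, `f₂` (two changes of
variables: `h ↦ ι h` and `h ↦ g h⁻¹`; no integrability is needed, `ι` is a homeomorphism). -/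
def ConvSwapC724 : Prop :=
  T1.LocCompC K → T1.UnimodC K → ∀ F : Frame K, MeasurePreserving (adjG724 (K := K)) F.μ F.μ →
    ∀ (f₁ f₂ : G K → ℂ) (g : G K),
      convKer724 F f₁ f₂ (adjG724 g)
        = convKer724 F (fun h => f₂ (adjG724 h)) (fun h => f₁ (adjG724 h)) g

/-- **T2.02d.5 DOUBLE COSETS.**  `ι(g) ∈ 𝒦 g 𝒦` for every `g` which lies in `U(𝔫)_v` at the
places `v ∣ 𝔫`.  (`adjugate M = J Mᵀ J⁻¹`, `J = [[0,1],[-1,0]]`; at `v ∤ 𝔫`: `M = L D U` after a
permutation, `L`, `U` in `GL₂(𝒪_v)`; at a complex place: singular value decomposition; at a real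
place: `GL₂(ℝ) = SO(2) A SO(2)`, `A` the diagonal matrices; at `v ∣ 𝔫`: `ι(g_v) g_v⁻¹ ∈ U(𝔫)_v`;
then glue: almost all `g_v` are in `GL₂(𝒪_v)`, where `k₁ = ι(g_v) g_v⁻¹`, `k₂ = 1`.) -/
def DoubleCosetC724 : Prop :=
  ∀ 𝔫 : Ideal (𝓞 K), 𝔫 ≠ ⊥ → ∀ g : G K, IsBadUnit724 𝔫 g →
    ∃ a ∈ kGroup724 𝔫, ∃ b ∈ kGroup724 𝔫, adjG724 g = a * g * b

/-- **T2.02d.5a LOCAL, finite places** (valued fields only): for `M ∈ GL₂(K_v)` there are
`A, B ∈ GL₂(𝒪_v)` with `adjugate M = A M B`.  (`adjugate M = J Mᵀ J⁻¹`; after a permutation the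
entry of largest valuation is `M 0 0`, then `M = L D U` with `L`, `U` unipotent integral and
`Mᵀ = (Uᵀ L⁻¹) M (U⁻¹ Lᵀ)`.) -/
def LocFinC724 : Prop :=
  ∀ (v : HeightOneSpectrum (𝓞 K)) (M : Matrix (Fin 2) (Fin 2) (v.adicCompletion K)),
    M.det ≠ 0 →
    ∃ A A' B B' : Matrix (Fin 2) (Fin 2) (v.adicCompletion K),
      A * A' = 1 ∧ B * B' = 1 ∧
      (∀ i j, Valued.v (A i j) ≤ 1) ∧ (∀ i j, Valued.v (A' i j) ≤ 1) ∧
      (∀ i j, Valued.v (B i j) ≤ 1) ∧ (∀ i j, Valued.v (B' i j) ≤ 1) ∧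
      M.adjugate = A * M * B

/-- **T2.02d.5b LOCAL, complex places** (Mathlib only): for `M ∈ GL₂(ℂ)` there are
`A, B ∈ U(2)` with `adjugate M = A M B` (singular value decomposition). -/
def LocCpxC724 : Prop :=
  ∀ M : Matrix (Fin 2) (Fin 2) ℂ, M.det ≠ 0 →
    ∃ A B : Matrix (Fin 2) (Fin 2) ℂ,
      A * A.conjTranspose = 1 ∧ B * B.conjTranspose = 1 ∧ M.adjugate = A * M * B

/-- **T2.02d.5c LOCAL, real places** (Mathlib only): for `M ∈ GL₂(ℝ)` there are `A, B ∈ SO(2)`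
with `adjugate M = A M B` (`GL₂(ℝ) = SO(2) A SO(2)`, `A` = ALL invertible diagonal matrices;
`adjugate (diag (a, b)) = w diag (a, b) w⁻¹`, `w` the rotation by `π/2`). -/
def LocRealC724 : Prop :=
  ∀ M : Matrix (Fin 2) (Fin 2) ℝ, M.det ≠ 0 →
    ∃ A B : Matrix (Fin 2) (Fin 2) ℝ,
      A * A.transpose = 1 ∧ A.det = 1 ∧ B * B.transpose = 1 ∧ B.det = 1 ∧
        M.adjugate = A * M * B

/-- **T2.02d.5d GLUE**: the adelic double coset statement from the local ones (adelic elements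
with prescribed local components; `idealClosure 𝔫 v = 𝒪_v` at `v ∤ 𝔫`; at `v ∣ 𝔫` the element
`ι(g_v) g_v⁻¹` lies in `U(𝔫)_v`; the completion at a real place is `ℝ`, at a complex place `ℂ`;
at almost all `v` the components of `g` are in `GL₂(𝒪_v)`, take `a_v = ι(g_v) g_v⁻¹`, `b_v = 1`). -/
def GlueC724 : Prop :=
  LocFinC724 K → LocCpxC724 → LocRealC724 → DoubleCosetC724 K

variable {K}

/-! ## 3. Consequences -/

/-- A function of spherical shape is bi-invariant under the generated group `𝒦`. -/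
theorem kGroup_inv724 {𝔫 : Ideal (𝓞 K)} {f : G K → ℂ} (hf : IsSphShape724 𝔫 f)
    {a b : G K} (ha : a ∈ kGroup724 𝔫) (hb : b ∈ kGroup724 𝔫) (g : G K) :
    f (a * g * b) = f g := by
  have hR : ∀ b ∈ kGroup724 𝔫, ∀ g : G K, f (g * b) = f g := by
    intro b hb
    refine Subgroup.closure_induction (p := fun b _ => ∀ g : G K, f (g * b) = f g)
      ?_ ?_ ?_ ?_ hb
    · rintro u (hu | ⟨w, hw⟩) g
      · exact hf.level_right u hu g
      · exact hf.arch_right w u hw g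
    · intro g; rw [mul_one]
    · intro x y _ _ hx hy g
      rw [← mul_assoc, hy, hx]
    · intro x _ hx g
      have := hx (g * x⁻¹)
      rw [inv_mul_cancel_right] at this
      exact this.symm
  have hL : ∀ a ∈ kGroup724 𝔫, ∀ g : G K, f (a * g) = f g := by
    intro a ha
    refine Subgroup.closure_induction (p := fun a _ => ∀ g : G K, f (a * g) = f g)
      ?_ ?_ ?_ ?_ ha
    · rintro u (hu | ⟨w, hw⟩) g
      · exact hf.level_left u hu g
      · exact hf.arch_left w u hw g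
    · intro g; rw [one_mul]
    · intro x y _ _ hx hy g
      rw [mul_assoc, hx, hy]
    · intro x _ hx g
      have := hx (x⁻¹ * g)
      rw [mul_inv_cancel_left] at this
      exact this.symm
  rw [hR b hb, hL a ha]

/-- `ι` preserves the support condition at the places dividing the level
(from the double coset statement: `𝒦 ⊆ {bad units}`; here only the formal part). -/
theorem sphInv_of_doubleCoset724 (hDC : DoubleCosetC724 K) {𝔫 : Ideal (𝓞 K)} (h𝔫 : 𝔫 ≠ ⊥)
    {f : G K → ℂ} (hf : IsSphShape724 𝔫 f) (g : G K) : f (adjG724 g) = f g := by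
  by_cases hg : IsBadUnit724 𝔫 g
  · obtain ⟨a, ha, b, hb, e⟩ := hDC 𝔫 h𝔫 g hg
    rw [e, kGroup_inv724 hf ha hb]
  · by_cases hg' : IsBadUnit724 𝔫 (adjG724 g)
    · obtain ⟨a, ha, b, hb, e⟩ := hDC 𝔫 h𝔫 (adjG724 g) hg'
      rw [adjG724_adjG724] at e
      have h1 : f g = f (adjG724 g) := by
        conv_lhs => rw [e]
        exact kGroup_inv724 hf ha hb _
      exact h1.symm
    · have h1 : f g = 0 := by
        by_contra h
        exact hg (hf.bad_unit g h)
      have h2 : f (adjG724 g) = 0 := by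
        by_contra h
        exact hg' (hf.bad_unit _ h)
      rw [h1, h2]

/-- **TOP of T2.02d**: convolutions by spherical test functions commute. -/
theorem convComm_of_doubleCoset724 (hKer : ConvKerC724 K) (hShape : ConvShapeC724 K)
    (hMeas : AdjMeasC724 K) (hSwap : ConvSwapC724 K) (hDC : DoubleCosetC724 K)
    (hT1 : T1.T1Out K) (𝔫 : Ideal (𝓞 K)) (h𝔫 : 𝔫 ≠ ⊥) (F : Frame K) (f₁ f₂ φ : G K → ℂ)
    (h₁ : IsSphTestFn 𝔫 f₁) (h₂ : IsSphTestFn 𝔫 f₂) (hφ : IsCuspFn 𝔫 φ) :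
    conv F f₁ (conv F f₂ φ) = conv F f₂ (conv F f₁ φ) := by
  funext x
  have hLC := hT1.locComp
  have hμ : MeasurePreserving (adjG724 (K := K)) F.μ F.μ := hMeas hLC hT1.unimod F.μ F.haar
  rw [hKer hLC F f₁ f₂ φ h₁.test.cont h₁.test.cpt h₂.test.cont h₂.test.cpt hφ.cont hφ.bdd x,
    hKer hLC F f₂ f₁ φ h₂.test.cont h₂.test.cpt h₁.test.cont h₁.test.cpt hφ.cont hφ.bdd x]
  have hker : ∀ g : G K, convKer724 F f₁ f₂ g = convKer724 F f₂ f₁ g := by
    intro g
    have s12 : IsSphShape724 𝔫 (convKer724 F f₁ f₂) :=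
      hShape hLC 𝔫 F f₁ f₂ (shape_of_sphTest724 h₁) (shape_of_sphTest724 h₂)
    have e1 : (fun h => f₂ (adjG724 h)) = f₂ :=
      funext fun h => sphInv_of_doubleCoset724 hDC h𝔫 (shape_of_sphTest724 h₂) h
    have e2 : (fun h => f₁ (adjG724 h)) = f₁ :=
      funext fun h => sphInv_of_doubleCoset724 hDC h𝔫 (shape_of_sphTest724 h₁) h
    rw [← sphInv_of_doubleCoset724 hDC h𝔫 s12 g, hSwap hLC hT1.unimod F hμ f₁ f₂ g, e1, e2]
  simp_rw [hker]

/-- **TOP of T2.02d, from the eight sub-leaves.** -/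
theorem convComm_of_leaves724 (hKer : ConvKerC724 K) (hShape : ConvShapeC724 K)
    (hMeas : AdjMeasC724 K) (hSwap : ConvSwapC724 K)
    (hFin : LocFinC724 K) (hCpx : LocCpxC724) (hReal : LocRealC724) (hGlue : GlueC724 K)
    (hT1 : T1.T1Out K) (𝔫 : Ideal (𝓞 K)) (h𝔫 : 𝔫 ≠ ⊥) (F : Frame K) (f₁ f₂ φ : G K → ℂ)
    (h₁ : IsSphTestFn 𝔫 f₁) (h₂ : IsSphTestFn 𝔫 f₂) (hφ : IsCuspFn 𝔫 φ) :
    conv F f₁ (conv F f₂ φ) = conv F f₂ (conv F f₁ φ) :=
  convComm_of_doubleCoset724 hKer hShape hMeas hSwap (hGlue hFin hCpx hReal) hT1 𝔫 h𝔫 F f₁ f₂ φ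
    h₁ h₂ hφ

end Fermat.Agent.LT.T2.H724
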