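import Mathlib
import Fermat.Agent.LT.T2.H724.CommSpec
import Fermat.Agent.LT.T1.H724.HeckeCoset

/-!
# Row LT, T2.02d GLUE, part 1 (helper724): the closure `𝔫 𝒪_v` of an ideal in the completion

`idealClosure 𝔫 v` (A0) is closed under addition, negation and multiplication, is contained in
`𝒪_v`, and is all of `𝒪_v` if `v ∤ 𝔫`.
-/

set_option autoImplicit false
set_option linter.unnecessarySimpa false

open IsDedekindDomain NumberField
open Fermat.Agent.LT.H556.A0 Fermat.Agent.LT.T1.H724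

noncomputable section

namespace Fermat.Agent.LT.T2.H724

variable {K : Type} [Field K] [NumberField K]

/-- membership in a closure from approximations in the valuation -/
theorem mem_closure_of_approx724 (v : HeightOneSpectrum (𝓞 K)) (S : Set (v.adicCompletion K))
    (x : v.adicCompletion K)
    (h : ∀ γ : (WithZero (Multiplicative ℤ))ˣ, ∃ s ∈ S, Valued.v (s - x) < (γ : WithZero (Multiplicative ℤ))) :
    x ∈ closure S := by
  rw [mem_closure_iff_nhds]
  intro t ht
  obtain ⟨γ, hγ⟩ := Valued.mem_nhds.1 ht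
  have hne : MonoidWithZeroHom.ValueGroup₀.embedding γ.1 ≠ 0 := by
    intro h0
    have : γ.1 = 0 := by
      simpa using h0
    exact γ.ne_zero this
  obtain ⟨s, hs, hlt⟩ := h (Units.mk0 _ hne)
  refine ⟨s, hγ ?_, hs⟩
  show Valued.v.restrict (s - x) < γ.1
  rw [Valuation.restrict_lt_iff_lt_embedding]
  exact hlt

variable (v : HeightOneSpectrum (𝓞 K)) (𝔫 : Ideal (𝓞 K))

/-- the map `𝓞 K → K_v` of `A0.idealClosure` -/
def iotaInt724 : 𝓞 K →+* v.adicCompletion K :=
  (algebraMap K (v.adicCompletion K)).comp (algebraMap (𝓞 K) K)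

theorem iotaInt724_apply (x : 𝓞 K) :
    iotaInt724 v x = algebraMap K (v.adicCompletion K) (algebraMap (𝓞 K) K x) := rfl

theorem iotaInt724_eq (x : 𝓞 K) :
    iotaInt724 v x = algebraMap (𝓞 K) (v.adicCompletion K) x := by
  rw [iotaInt724_apply, ← IsScalarTower.algebraMap_apply]

theorem idealClosure_eq724 :
    idealClosure 𝔫 v = closure ((iotaInt724 v) '' (𝔫 : Set (𝓞 K))) := rfl

theorem val_iotaInt_le724 (x : 𝓞 K) : Valued.v (iotaInt724 v x) ≤ 1 := by
  rw [iotaInt724_eq]
  exact val_int_le_one724 v x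

/-- `𝔫 𝒪_v ⊆ 𝒪_v`. -/
theorem val_le_one_of_mem_idealClosure724 {x : v.adicCompletion K}
    (hx : x ∈ idealClosure 𝔫 v) : Valued.v x ≤ 1 := by
  have hcl : IsClosed ((v.adicCompletionIntegers K : Set (v.adicCompletion K))) :=
    Valued.isClosed_valuationSubring _
  have hsub : (iotaInt724 v) '' (𝔫 : Set (𝓞 K)) ⊆
      (v.adicCompletionIntegers K : Set (v.adicCompletion K)) := by
    rintro _ ⟨r, -, rfl⟩
    exact (HeightOneSpectrum.mem_adicCompletionIntegers (𝓞 K) K v).2 (val_iotaInt_le724 v r)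
  exact (HeightOneSpectrum.mem_adicCompletionIntegers (𝓞 K) K v).1
    (closure_minimal hsub hcl hx)

theorem zero_mem_idealClosure724 : (0 : v.adicCompletion K) ∈ idealClosure 𝔫 v :=
  subset_closure ⟨0, 𝔫.zero_mem, map_zero _⟩

theorem add_mem_idealClosure724 {x y : v.adicCompletion K} (hx : x ∈ idealClosure 𝔫 v)
    (hy : y ∈ idealClosure 𝔫 v) : x + y ∈ idealClosure 𝔫 v := by
  refine map_mem_closure₂ (f := fun a b : v.adicCompletion K => a + b) continuous_add hx hy ?_
  rintro _ ⟨a, ha, rfl⟩ _ ⟨b, hb, rfl⟩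
  exact ⟨a + b, 𝔫.add_mem ha hb, map_add _ _ _⟩

theorem mul_mem_idealClosure724 {x y : v.adicCompletion K} (hx : x ∈ idealClosure 𝔫 v)
    (hy : y ∈ idealClosure 𝔫 v) : x * y ∈ idealClosure 𝔫 v := by
  refine map_mem_closure₂ (f := fun a b : v.adicCompletion K => a * b) continuous_mul hx hy ?_
  rintro _ ⟨a, ha, rfl⟩ _ ⟨b, hb, rfl⟩
  exact ⟨a * b, 𝔫.mul_mem_left a hb, map_mul _ _ _⟩

theorem neg_mem_idealClosure724 {x : v.adicCompletion K} (hx : x ∈ idealClosure 𝔫 v) :
    -x ∈ idealClosure 𝔫 v := by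
  refine map_mem_closure (f := fun a : v.adicCompletion K => -a) continuous_neg hx ?_
  rintro _ ⟨a, ha, rfl⟩
  exact ⟨-a, 𝔫.neg_mem ha, map_neg _ _⟩

theorem sub_mem_idealClosure724 {x y : v.adicCompletion K} (hx : x ∈ idealClosure 𝔫 v)
    (hy : y ∈ idealClosure 𝔫 v) : x - y ∈ idealClosure 𝔫 v := by
  rw [sub_eq_add_neg]
  exact add_mem_idealClosure724 v 𝔫 hx (neg_mem_idealClosure724 v 𝔫 hy)

/-- approximation of an element of `K_v` by elements of `K`, to any precision -/
theorem exists_rat_approx724 (x : v.adicCompletion K) (γ : (WithZero (Multiplicative ℤ))ˣ) :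
    ∃ k : K, Valued.v (algebraMap K (v.adicCompletion K) k - x)
      < (γ : WithZero (Multiplicative ℤ)) := by
  obtain ⟨ϖ, hϖ⟩ := exists_unif724 v
  obtain ⟨n, hn⟩ := WithZero.exists_exp_neg_natCast_lt (x := (γ : WithZero (Multiplicative ℤ)))
    γ.ne_zero
  have hc : Valued.v (ϖ ^ n) = WithZero.exp (-(n : ℤ)) := by
    rw [map_pow, hϖ, ← WithZero.exp_nsmul]
    simp
  have hopen : IsOpen {y : v.adicCompletion K | Valued.v ((y - x) * (ϖ ^ n)⁻¹) ≤ 1} := by
    have h1 : IsOpen ((v.adicCompletionIntegers K : Set (v.adicCompletion K))) :=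
      Valued.isOpen_valuationSubring _
    have h2 : Continuous (fun y : v.adicCompletion K => (y - x) * (ϖ ^ n)⁻¹) :=
      (continuous_id.sub continuous_const).mul continuous_const
    exact h1.preimage h2
  have hne : ({y : v.adicCompletion K | Valued.v ((y - x) * (ϖ ^ n)⁻¹) ≤ 1}).Nonempty :=
    ⟨x, by simp⟩
  obtain ⟨k, hk⟩ := (HeightOneSpectrum.denseRange_algebraMap K v).exists_mem_open hopen hne
  refine ⟨k, lt_of_le_of_lt ?_ hn⟩
  have hk' : Valued.v ((algebraMap K (v.adicCompletion K) k - x) * (ϖ ^ n)⁻¹) ≤ 1 := hk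
  rw [map_mul, map_inv₀, hc] at hk'
  rwa [mul_inv_le_iff₀ WithZero.exp_pos, one_mul] at hk'

/-- `𝔫 𝒪_v = 𝒪_v` if `v ∤ 𝔫`. -/
theorem mem_idealClosure_of_not_dvd724 (hv : ¬ v.asIdeal ∣ 𝔫) {x : v.adicCompletion K}
    (hx : Valued.v x ≤ 1) : x ∈ idealClosure 𝔫 v := by
  -- an element of `𝔫` which is a unit at `v`
  have hle : ¬ 𝔫 ≤ v.asIdeal := fun h => hv (Ideal.dvd_iff_le.2 h)
  obtain ⟨e, he, hev⟩ := SetLike.not_le_iff_exists.1 hle
  have hval_e : v.valuation K (algebraMap (𝓞 K) K e) = 1 := by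
    refine le_antisymm (v.valuation_le_one e) (not_lt.1 ?_)
    rw [v.valuation_lt_one_iff_mem]
    exact hev
  have he0 : algebraMap (𝓞 K) K e ≠ 0 := by
    intro h
    rw [h, map_zero] at hval_e
    exact zero_ne_one hval_e
  rw [idealClosure_eq724]
  refine mem_closure_of_approx724 v _ x (fun γ => ?_)
  obtain ⟨k, hk⟩ := exists_rat_approx724 v x γ
  have hγ1 : (γ : WithZero (Multiplicative ℤ)) ≤ 1 ∨ 1 < (γ : WithZero (Multiplicative ℤ)) :=
    le_or_gt _ _
  -- WLOG the precision is at most `1`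
  obtain ⟨k, hk, hk1⟩ : ∃ k : K, Valued.v (algebraMap K (v.adicCompletion K) k - x)
      < (γ : WithZero (Multiplicative ℤ)) ∧ v.valuation K k ≤ 1 := by
    rcases hγ1 with h | h
    · refine ⟨k, hk, ?_⟩
      rw [← val_algebraMap724]
      have e1 : algebraMap K (v.adicCompletion K) k
          = (algebraMap K (v.adicCompletion K) k - x) + x := by ring
      rw [e1]
      exact (Valuation.map_add _ _ _).trans (max_le (hk.le.trans h) hx)
    · obtain ⟨k', hk'⟩ := exists_rat_approx724 v x 1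
      refine ⟨k', lt_trans hk' ?_, ?_⟩
      · simpa using h
      · rw [← val_algebraMap724]
        have e1 : algebraMap K (v.adicCompletion K) k'
            = (algebraMap K (v.adicCompletion K) k' - x) + x := by ring
        rw [e1]
        refine (Valuation.map_add _ _ _).trans (max_le ?_ hx)
        have := hk'.le
        simpa using this
  have hke : v.valuation K (k / algebraMap (𝓞 K) K e) ≤ 1 := by
    rw [map_div₀, hval_e, div_one]
    exact hk1
  obtain ⟨a, ha⟩ := v.exists_valuation_sub_lt_of_integer hke γ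
  refine ⟨iotaInt724 v (a * e), ⟨a * e, 𝔫.mul_mem_left a he, rfl⟩, ?_⟩
  have h1 : Valued.v (iotaInt724 v (a * e) - algebraMap K (v.adicCompletion K) k)
      < (γ : WithZero (Multiplicative ℤ)) := by
    have e2 : iotaInt724 v (a * e) - algebraMap K (v.adicCompletion K) k
        = algebraMap K (v.adicCompletion K)
          ((algebraMap (𝓞 K) K a - k / algebraMap (𝓞 K) K e) * algebraMap (𝓞 K) K e) := by
      rw [iotaInt724_apply, ← map_sub]
      congr 1
      rw [map_mul]
      field_simp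
    rw [e2, val_algebraMap724, map_mul, hval_e, mul_one]
    exact ha
  have e3 : iotaInt724 v (a * e) - x
      = (iotaInt724 v (a * e) - algebraMap K (v.adicCompletion K) k)
        + (algebraMap K (v.adicCompletion K) k - x) := by ring
  rw [e3]
  exact lt_of_le_of_lt (Valuation.map_add _ _ _) (max_lt h1 hk)

end Fermat.Agent.LT.T2.H724
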