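import Mathlib
import Fermat.Agent.LT.T2.H724.IdealCl

/-!
# Row LT, T2.02d.5d GLUE (helper724): the adelic double coset statement from the local ones

    glueC724 : GlueC724 K   (= LocFinC724 K → LocCpxC724 → LocRealC724 → DoubleCosetC724 K)

Parts: A. components of adelic matrices at the infinite places; B. adelic elements with prescribed
(integral) components; C. membership in the generated group `𝒦`; D. the assembly.
-/

set_option autoImplicit false

open IsDedekindDomain NumberField
open Fermat.Agent.LT.H556.A0 Fermat.Agent.LT.T1.H724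

noncomputable section

namespace Fermat.Agent.LT.T2.H724

variable {K : Type} [Field K] [NumberField K]

/-! ## A. Components -/

/-- The component at the infinite place `w`, in `ℂ`. -/
def infMap724 (w : InfinitePlace K) : Adl K →+* ℂ :=
  (InfinitePlace.Completion.extensionEmbedding w).comp (evInf724 w)

theorem infComp_eq_map724 (w : InfinitePlace K) (g : G K) :
    infComp w g = (g : Matrix (Fin 2) (Fin 2) (Adl K)).map (infMap724 w) := rfl

theorem infComp_eq_map_map724 (w : InfinitePlace K) (g : G K) :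
    infComp w g = ((g : Matrix (Fin 2) (Fin 2) (Adl K)).map (evInf724 w)).map
      (InfinitePlace.Completion.extensionEmbedding w) := rfl

theorem trivAtInf_iff724 (w : InfinitePlace K) (g : G K) :
    TrivAtInf w g ↔ (g : Matrix (Fin 2) (Fin 2) (Adl K)).map (evInf724 w) = 1 := by
  constructor
  · intro h
    ext i j : 1
    exact h i j
  · intro h i j
    exact congrFun (congrFun h i) j

/-- the matrix of `g` at the infinite place `w`, in the completion -/
def cInf724 (w : InfinitePlace K) (g : G K) : Matrix (Fin 2) (Fin 2) w.Completion :=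
  (g : Matrix (Fin 2) (Fin 2) (Adl K)).map (evInf724 w)

theorem cInf_mul724 (w : InfinitePlace K) (g h : G K) :
    cInf724 w (g * h) = cInf724 w g * cInf724 w h := by
  simp only [cInf724, Units.val_mul, Matrix.map_mul]

theorem cInf_one724 (w : InfinitePlace K) : cInf724 w (1 : G K) = 1 := by
  simp only [cInf724, Units.val_one]
  exact Matrix.map_one _ (map_zero _) (map_one _)

theorem cInf_mul_inv724 (w : InfinitePlace K) (g : G K) :
    cInf724 w g * cInf724 w g⁻¹ = 1 := by
  rw [← cInf_mul724, mul_inv_cancel, cInf_one724]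

theorem cInf_inv_mul724 (w : InfinitePlace K) (g : G K) :
    cInf724 w g⁻¹ * cInf724 w g = 1 := by
  rw [← cInf_mul724, inv_mul_cancel, cInf_one724]

theorem infComp_eq_cInf724 (w : InfinitePlace K) (g : G K) :
    infComp w g = (cInf724 w g).map (InfinitePlace.Completion.extensionEmbedding w) := rfl

theorem trivAtInf_iff_cInf724 (w : InfinitePlace K) (g : G K) :
    TrivAtInf w g ↔ cInf724 w g = 1 := trivAtInf_iff724 w g

theorem cInf_adjG724 (w : InfinitePlace K) (g : G K) :
    cInf724 w (adjG724 g) = (cInf724 w g).adjugate := by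
  have := RingHom.map_adjugate (evInf724 w) (g : Matrix (Fin 2) (Fin 2) (Adl K))
  simpa [cInf724, adjG724_val, RingHom.mapMatrix_apply] using this

theorem finComp_adjG724 (v : HeightOneSpectrum (𝓞 K)) (g : G K) :
    finComp v (adjG724 g) = (finComp v g).adjugate := by
  have := RingHom.map_adjugate (evFin724 v) (g : Matrix (Fin 2) (Fin 2) (Adl K))
  simpa [finComp_eq_map724, adjG724_val, RingHom.mapMatrix_apply] using this

/-- equality of elements of `GL₂(𝔸_K)` by components -/
theorem g_ext724 {g h : G K} (h1 : ∀ w, cInf724 w g = cInf724 w h)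
    (h2 : ∀ v, finComp v g = finComp v h) : g = h :=
  Units.ext (mat_ext724 h1 h2)

/-! ## B. Adelic elements with prescribed components -/

/-- The adele with the components `xI w`, `xf v` (the latter integral). -/
def mkAd724 (xI : ∀ w : InfinitePlace K, w.Completion)
    (xf : ∀ v : HeightOneSpectrum (𝓞 K), v.adicCompletion K)
    (h : ∀ v, Valued.v (xf v) ≤ 1) : Adl K :=
  (xI, ⟨xf, Filter.Eventually.of_forall fun v =>
    (HeightOneSpectrum.mem_adicCompletionIntegers (𝓞 K) K v).2 (h v)⟩)

/-- The adelic matrix with the components `MI w`, `Mf v` (the latter integral). -/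
def mkMat724 (MI : ∀ w : InfinitePlace K, Matrix (Fin 2) (Fin 2) w.Completion)
    (Mf : ∀ v : HeightOneSpectrum (𝓞 K), Matrix (Fin 2) (Fin 2) (v.adicCompletion K))
    (h : ∀ v i j, Valued.v (Mf v i j) ≤ 1) : Matrix (Fin 2) (Fin 2) (Adl K) :=
  fun i j => mkAd724 (fun w => MI w i j) (fun v => Mf v i j) (fun v => h v i j)

theorem mkMat_map_inf724 (MI : ∀ w : InfinitePlace K, Matrix (Fin 2) (Fin 2) w.Completion)
    (Mf : ∀ v : HeightOneSpectrum (𝓞 K), Matrix (Fin 2) (Fin 2) (v.adicCompletion K))
    (h : ∀ v i j, Valued.v (Mf v i j) ≤ 1) (w : InfinitePlace K) :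
    (mkMat724 MI Mf h).map (evInf724 w) = MI w := rfl

theorem mkMat_map_fin724 (MI : ∀ w : InfinitePlace K, Matrix (Fin 2) (Fin 2) w.Completion)
    (Mf : ∀ v : HeightOneSpectrum (𝓞 K), Matrix (Fin 2) (Fin 2) (v.adicCompletion K))
    (h : ∀ v i j, Valued.v (Mf v i j) ≤ 1) (v : HeightOneSpectrum (𝓞 K)) :
    (mkMat724 MI Mf h).map (evFin724 v) = Mf v := rfl

theorem mkMat_mul724 (MI NI : ∀ w : InfinitePlace K, Matrix (Fin 2) (Fin 2) w.Completion)
    (Mf Nf : ∀ v : HeightOneSpectrum (𝓞 K), Matrix (Fin 2) (Fin 2) (v.adicCompletion K))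
    (hM : ∀ v i j, Valued.v (Mf v i j) ≤ 1) (hN : ∀ v i j, Valued.v (Nf v i j) ≤ 1)
    (h1 : ∀ w, MI w * NI w = 1) (h3 : ∀ v, Mf v * Nf v = 1) :
    mkMat724 MI Mf hM * mkMat724 NI Nf hN = 1 := by
  refine mat_ext724 (fun w => ?_) (fun v => ?_)
  · rw [Matrix.map_mul, mkMat_map_inf724, mkMat_map_inf724, h1,
      Matrix.map_one _ (map_zero _) (map_one _)]
  · rw [Matrix.map_mul, mkMat_map_fin724, mkMat_map_fin724, h3,
      Matrix.map_one _ (map_zero _) (map_one _)]

/-- The element of `GL₂(𝔸_K)` with the components `MI w`, `Mf v` and inverse components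
`NI w`, `Nf v`. -/
def mkG724 (MI NI : ∀ w : InfinitePlace K, Matrix (Fin 2) (Fin 2) w.Completion)
    (Mf Nf : ∀ v : HeightOneSpectrum (𝓞 K), Matrix (Fin 2) (Fin 2) (v.adicCompletion K))
    (hM : ∀ v i j, Valued.v (Mf v i j) ≤ 1) (hN : ∀ v i j, Valued.v (Nf v i j) ≤ 1)
    (h1 : ∀ w, MI w * NI w = 1) (h3 : ∀ v, Mf v * Nf v = 1) : G K :=
  ⟨mkMat724 MI Mf hM, mkMat724 NI Nf hN, mkMat_mul724 MI NI Mf Nf hM hN h1 h3,
    mkMat_mul724 NI MI Nf Mf hN hM (fun w => mul_eq_one_comm.1 (h1 w))
      (fun v => mul_eq_one_comm.1 (h3 v))⟩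

section mkG

variable (MI NI : ∀ w : InfinitePlace K, Matrix (Fin 2) (Fin 2) w.Completion)
    (Mf Nf : ∀ v : HeightOneSpectrum (𝓞 K), Matrix (Fin 2) (Fin 2) (v.adicCompletion K))
    (hM : ∀ v i j, Valued.v (Mf v i j) ≤ 1) (hN : ∀ v i j, Valued.v (Nf v i j) ≤ 1)
    (h1 : ∀ w, MI w * NI w = 1) (h3 : ∀ v, Mf v * Nf v = 1)

theorem cInf_mkG724 (w : InfinitePlace K) :
    cInf724 w (mkG724 MI NI Mf Nf hM hN h1 h3) = MI w := rfl

theorem cInf_mkG_inv724 (w : InfinitePlace K) :
    cInf724 w (mkG724 MI NI Mf Nf hM hN h1 h3)⁻¹ = NI w := rfl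

theorem finComp_mkG724 (v : HeightOneSpectrum (𝓞 K)) :
    finComp v (mkG724 MI NI Mf Nf hM hN h1 h3) = Mf v := rfl

theorem finComp_mkG_inv724 (v : HeightOneSpectrum (𝓞 K)) :
    finComp v (mkG724 MI NI Mf Nf hM hN h1 h3)⁻¹ = Nf v := rfl

end mkG

/-! ## C. Membership in the generated group `𝒦` -/

theorem val_one_apply_le724 (v : HeightOneSpectrum (𝓞 K)) (i j : Fin 2) :
    Valued.v ((1 : Matrix (Fin 2) (Fin 2) (v.adicCompletion K)) i j) ≤ 1 := by
  by_cases h : i = j
  · rw [Matrix.one_apply, if_pos h, map_one]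
  · rw [Matrix.one_apply, if_neg h, map_zero]
    exact zero_le_one

open Classical in
/-- The element with component `M` (inverse `N`) at the infinite place `w` and `1` at all other
places. -/
def locInfG724 (w : InfinitePlace K) (M N : Matrix (Fin 2) (Fin 2) w.Completion)
    (h : M * N = 1) : G K :=
  mkG724 (Function.update (fun w' => (1 : Matrix (Fin 2) (Fin 2) w'.Completion)) w M)
    (Function.update (fun w' => (1 : Matrix (Fin 2) (Fin 2) w'.Completion)) w N)
    (fun _ => 1) (fun _ => 1) (fun v i j => val_one_apply_le724 v i j)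
    (fun v i j => val_one_apply_le724 v i j)
    (by
      intro w'
      by_cases hw : w' = w
      · subst hw
        rw [Function.update_self, Function.update_self, h]
      · rw [Function.update_of_ne hw, Function.update_of_ne hw, one_mul])
    (fun _ => one_mul 1)

section locInf

variable (w : InfinitePlace K) (M N : Matrix (Fin 2) (Fin 2) w.Completion) (h : M * N = 1)

theorem cInf_locInfG_self724 : cInf724 w (locInfG724 w M N h) = M := by
  classical
  change Function.update (fun w' => (1 : Matrix (Fin 2) (Fin 2) w'.Completion)) w M w = M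
  exact Function.update_self ..

theorem cInf_locInfG_inv_self724 : cInf724 w (locInfG724 w M N h)⁻¹ = N := by
  classical
  change Function.update (fun w' => (1 : Matrix (Fin 2) (Fin 2) w'.Completion)) w N w = N
  exact Function.update_self ..

theorem cInf_locInfG_ne724 {w' : InfinitePlace K} (hw : w' ≠ w) :
    cInf724 w' (locInfG724 w M N h) = 1 := by
  classical
  change Function.update (fun w' => (1 : Matrix (Fin 2) (Fin 2) w'.Completion)) w M w' = 1
  exact Function.update_of_ne hw ..

theorem cInf_locInfG_inv_ne724 {w' : InfinitePlace K} (hw : w' ≠ w) :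
    cInf724 w' (locInfG724 w M N h)⁻¹ = 1 := by
  classical
  change Function.update (fun w' => (1 : Matrix (Fin 2) (Fin 2) w'.Completion)) w N w' = 1
  exact Function.update_of_ne hw ..

theorem finComp_locInfG724 (v : HeightOneSpectrum (𝓞 K)) :
    finComp v (locInfG724 w M N h) = 1 := rfl

theorem finComp_locInfG_inv724 (v : HeightOneSpectrum (𝓞 K)) :
    finComp v (locInfG724 w M N h)⁻¹ = 1 := rfl

theorem isLocalAtInf_locInfG724 : IsLocalAtInf w (locInfG724 w M N h) :=
  ⟨fun _ hw => (trivAtInf_iff_cInf724 _ _).2 (cInf_locInfG_ne724 w M N h hw),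
    fun v => finComp_locInfG724 w M N h v⟩

end locInf

/-- the level condition at all finite places (second half of `A0.InLevelGroup`) -/
def LevelFin724 (𝔫 : Ideal (𝓞 K)) (a : G K) : Prop :=
  ∀ (v : HeightOneSpectrum (𝓞 K)) (i j : Fin 2),
    (finComp v a - 1) i j ∈ idealClosure 𝔫 v ∧ (finComp v a⁻¹ - 1) i j ∈ idealClosure 𝔫 v

/-- the compactness condition at the infinite place `w` -/
def CompactInf724 (w : InfinitePlace K) (a : G K) : Prop :=
  infComp w a * (infComp w a).conjTranspose = 1 ∧ (w.IsReal → (infComp w a).det = 1)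

/-- An element which is in `U(𝔫)` at the finite places, in the compact group at the infinite
places of `S` and trivial at the other infinite places lies in `𝒦`. -/
theorem mem_kGroup_of_comps724 (𝔫 : Ideal (𝓞 K)) (S : Finset (InfinitePlace K)) :
    ∀ a : G K, LevelFin724 𝔫 a → (∀ w ∈ S, CompactInf724 w a) →
      (∀ w, w ∉ S → TrivAtInf w a) → a ∈ kGroup724 𝔫 := by
  classical
  induction S using Finset.induction_on with
  | empty =>
    intro a hlev _ htriv
    exact Subgroup.subset_closure (Or.inl ⟨fun w => htriv w (Finset.notMem_empty w), hlev⟩)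
  | insert w S hwS ih =>
    intro a hlev hcomp htriv
    -- the component of `a` at `w`
    set k : G K := locInfG724 w (cInf724 w a) (cInf724 w a⁻¹) (cInf_mul_inv724 w a) with hk
    have hkgen : k ∈ kGroup724 𝔫 := by
      refine Subgroup.subset_closure (Or.inr ⟨w, isLocalAtInf_locInfG724 w _ _ _, ?_⟩)
      have e : infComp w k = infComp w a := by
        rw [infComp_eq_cInf724, infComp_eq_cInf724, hk, cInf_locInfG_self724]
      rw [e]
      exact hcomp w (Finset.mem_insert_self w S)
    have ha' : a * k⁻¹ ∈ kGroup724 𝔫 := by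
      refine ih (a * k⁻¹) ?_ ?_ ?_
      · intro v i j
        have e1 : finComp v (a * k⁻¹) = finComp v a := by
          rw [finComp_mul724, hk, finComp_locInfG_inv724, mul_one]
        have e2 : finComp v (a * k⁻¹)⁻¹ = finComp v a⁻¹ := by
          rw [mul_inv_rev, inv_inv, finComp_mul724, hk, finComp_locInfG724, one_mul]
        rw [e1, e2]
        exact hlev v i j
      · intro w' hw'
        have hne : w' ≠ w := fun e => hwS (e ▸ hw')
        have e : infComp w' (a * k⁻¹) = infComp w' a := by
          rw [infComp_eq_cInf724, infComp_eq_cInf724, cInf_mul724, hk,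
            cInf_locInfG_inv_ne724 w _ _ _ hne, mul_one]
        unfold CompactInf724
        rw [e]
        exact hcomp w' (Finset.mem_insert_of_mem hw')
      · intro w' hw'
        rw [trivAtInf_iff_cInf724, cInf_mul724]
        by_cases hne : w' = w
        · subst hne
          rw [hk, cInf_locInfG_inv_self724, cInf_mul_inv724]
        · rw [hk, cInf_locInfG_inv_ne724 w _ _ _ hne, mul_one]
          exact (trivAtInf_iff_cInf724 _ _).1
            (htriv w' (fun h => (Finset.mem_insert.1 h).elim hne hw'))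
    have : a = a * k⁻¹ * k := by rw [inv_mul_cancel_right]
    rw [this]
    exact Subgroup.mul_mem _ ha' hkgen

/-! ## D. The local choices -/

section FinChoice

variable (v : HeightOneSpectrum (𝓞 K)) (𝔫 : Ideal (𝓞 K))

/-- all entries lie in `𝔫 𝒪_v` -/
def InCl724 (X : Matrix (Fin 2) (Fin 2) (v.adicCompletion K)) : Prop :=
  ∀ i j, X i j ∈ idealClosure 𝔫 v

variable {v 𝔫}

theorem inCl_add724 {X Y : Matrix (Fin 2) (Fin 2) (v.adicCompletion K)}
    (hX : InCl724 v 𝔫 X) (hY : InCl724 v 𝔫 Y) : InCl724 v 𝔫 (X + Y) :=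
  fun i j => add_mem_idealClosure724 v 𝔫 (hX i j) (hY i j)

theorem inCl_mul724 {X Y : Matrix (Fin 2) (Fin 2) (v.adicCompletion K)}
    (hX : InCl724 v 𝔫 X) (hY : InCl724 v 𝔫 Y) : InCl724 v 𝔫 (X * Y) := by
  intro i j
  rw [Matrix.mul_apply, Fin.sum_univ_two]
  exact add_mem_idealClosure724 v 𝔫 (mul_mem_idealClosure724 v 𝔫 (hX i 0) (hY 0 j))
    (mul_mem_idealClosure724 v 𝔫 (hX i 1) (hY 1 j))

theorem inCl_zero724 : InCl724 v 𝔫 (0 : Matrix (Fin 2) (Fin 2) (v.adicCompletion K)) :=
  fun _ _ => zero_mem_idealClosure724 v 𝔫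

theorem inCl_adj724 {X : Matrix (Fin 2) (Fin 2) (v.adicCompletion K)}
    (hX : InCl724 v 𝔫 (X - 1)) : InCl724 v 𝔫 (X.adjugate - 1) := by
  have h00 := hX 0 0
  have h01 := hX 0 1
  have h10 := hX 1 0
  have h11 := hX 1 1
  simp only [Matrix.sub_apply, Matrix.one_apply_eq, Matrix.one_apply_ne, ne_eq, one_ne_zero,
    not_false_eq_true, zero_ne_one, sub_zero] at h00 h01 h10 h11
  intro i j
  rw [Matrix.adjugate_fin_two]
  fin_cases i <;> fin_cases j
  · simpa using h11
  · simpa using neg_mem_idealClosure724 v 𝔫 h01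
  · simpa using neg_mem_idealClosure724 v 𝔫 h10
  · simpa using h00

theorem inCl_prod724 {X Y : Matrix (Fin 2) (Fin 2) (v.adicCompletion K)}
    (hX : InCl724 v 𝔫 (X - 1)) (hY : InCl724 v 𝔫 (Y - 1)) : InCl724 v 𝔫 (X * Y - 1) := by
  have e : X * Y - 1 = (X - 1) * (Y - 1) + (X - 1) + (Y - 1) := by noncomm_ring
  rw [e]
  exact inCl_add724 (inCl_add724 (inCl_mul724 hX hY) hX) hY

theorem int_of_inCl724 {X : Matrix (Fin 2) (Fin 2) (v.adicCompletion K)}
    (hX : InCl724 v 𝔫 (X - 1)) (i j : Fin 2) : Valued.v (X i j) ≤ 1 := by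
  have e : X i j = (X - 1) i j + (1 : Matrix (Fin 2) (Fin 2) (v.adicCompletion K)) i j := by
    rw [Matrix.sub_apply, sub_add_cancel]
  rw [e]
  exact (Valuation.map_add _ _ _).trans
    (max_le (val_le_one_of_mem_idealClosure724 v 𝔫 (hX i j)) (val_one_apply_le724 v i j))

theorem inCl_of_int724 (hv : ¬ v.asIdeal ∣ 𝔫) {X : Matrix (Fin 2) (Fin 2) (v.adicCompletion K)}
    (hX : ∀ i j, Valued.v (X i j) ≤ 1) : InCl724 v 𝔫 (X - 1) := by
  intro i j
  refine mem_idealClosure_of_not_dvd724 v 𝔫 hv ?_
  rw [Matrix.sub_apply]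
  exact (Valuation.map_sub _ _ _).trans (max_le (hX i j) (val_one_apply_le724 v i j))

/-- the local choice at a finite place -/
theorem exists_fin724 (hFin : LocFinC724 K) (𝔫 : Ideal (𝓞 K)) (g : G K)
    (hg : IsBadUnit724 𝔫 g) (v : HeightOneSpectrum (𝓞 K)) :
    ∃ A A' B B' : Matrix (Fin 2) (Fin 2) (v.adicCompletion K),
      A * A' = 1 ∧ B * B' = 1 ∧
      (InCl724 v 𝔫 (A - 1) ∧ InCl724 v 𝔫 (A' - 1)) ∧
      (InCl724 v 𝔫 (B - 1) ∧ InCl724 v 𝔫 (B' - 1)) ∧
      (finComp v g).adjugate = A * finComp v g * B := by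
  by_cases hv : v.asIdeal ∣ 𝔫
  · have hM : InCl724 v 𝔫 (finComp v g - 1) := fun i j => (hg v hv i j).1
    have hM' : InCl724 v 𝔫 (finComp v g⁻¹ - 1) := fun i j => (hg v hv i j).2
    have h1 : InCl724 v 𝔫 ((1 : Matrix (Fin 2) (Fin 2) (v.adicCompletion K)) - 1) := by
      rw [sub_self]
      exact inCl_zero724
    refine ⟨(finComp v g).adjugate * finComp v g⁻¹, finComp v g * (finComp v g⁻¹).adjugate,
      1, 1, ?_, one_mul 1, ⟨inCl_prod724 (inCl_adj724 hM) hM', inCl_prod724 hM (inCl_adj724 hM')⟩,
      ⟨h1, h1⟩, ?_⟩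
    · rw [mul_assoc, ← mul_assoc (finComp v g⁻¹), finComp_inv_mul724, one_mul,
        ← Matrix.adjugate_mul_distrib, finComp_inv_mul724, Matrix.adjugate_one]
    · rw [mul_one, mul_assoc, finComp_inv_mul724, mul_one]
  · have hdet : (finComp v g).det ≠ 0 := by
      intro h0
      have := congrArg Matrix.det (finComp_mul_inv724 v g)
      rw [Matrix.det_mul, h0, zero_mul, Matrix.det_one] at this
      exact zero_ne_one this
    obtain ⟨A, A', B, B', hA, hB, iA, iA', iB, iB', e⟩ := hFin v (finComp v g) hdet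
    exact ⟨A, A', B, B', hA, hB, ⟨inCl_of_int724 hv iA, inCl_of_int724 hv iA'⟩,
      ⟨inCl_of_int724 hv iB, inCl_of_int724 hv iB'⟩, e⟩

end FinChoice

section InfChoice

/-- the compactness condition for a matrix over the completion at `w` -/
def UnitaryC724 (w : InfinitePlace K) (A : Matrix (Fin 2) (Fin 2) w.Completion) : Prop :=
  (A.map (InfinitePlace.Completion.extensionEmbedding w)) *
      (A.map (InfinitePlace.Completion.extensionEmbedding w)).conjTranspose = 1 ∧
    (w.IsReal → (A.map (InfinitePlace.Completion.extensionEmbedding w)).det = 1)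

theorem det_cInf_ne_zero724 (w : InfinitePlace K) (g : G K) : (cInf724 w g).det ≠ 0 := by
  intro h0
  have := congrArg Matrix.det (cInf_mul_inv724 w g)
  rw [Matrix.det_mul, h0, zero_mul, Matrix.det_one] at this
  exact zero_ne_one this

/-- the local choice at a complex place -/
theorem exists_cpx724 (hCpx : LocCpxC724) (g : G K) (w : InfinitePlace K) (hw : w.IsComplex) :
    ∃ A A' B B' : Matrix (Fin 2) (Fin 2) w.Completion,
      A * A' = 1 ∧ B * B' = 1 ∧ UnitaryC724 w A ∧ UnitaryC724 w B ∧
      (cInf724 w g).adjugate = A * cInf724 w g * B := by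
  set e : w.Completion ≃+* ℂ := InfinitePlace.Completion.ringEquivComplexOfIsComplex hw with he
  have hee : ∀ x : w.Completion, InfinitePlace.Completion.extensionEmbedding w x = e x :=
    fun _ => rfl
  have hmap : ∀ X : Matrix (Fin 2) (Fin 2) w.Completion,
      X.map (InfinitePlace.Completion.extensionEmbedding w) = X.map e := fun _ => rfl
  have hback : ∀ X : Matrix (Fin 2) (Fin 2) ℂ, (X.map e.symm).map e = X := by
    intro X
    ext i j : 1
    simp
  have hdet : ((cInf724 w g).map e).det ≠ 0 := by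
    have : ((cInf724 w g).map e).det = e ((cInf724 w g).det) := by
      rw [← RingEquiv.coe_toRingHom, ← RingHom.mapMatrix_apply, ← RingHom.map_det]
    rw [this]
    exact fun h => det_cInf_ne_zero724 w g ((map_eq_zero_iff e e.injective).1 h)
  obtain ⟨A₀, B₀, hA, hB, hadj⟩ := hCpx ((cInf724 w g).map e) hdet
  have hinj : Function.Injective
      (fun X : Matrix (Fin 2) (Fin 2) w.Completion => X.map e) :=
    Matrix.map_injective e.injective
  refine ⟨A₀.map e.symm, A₀.conjTranspose.map e.symm, B₀.map e.symm,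
    B₀.conjTranspose.map e.symm, ?_, ?_, ?_, ?_, ?_⟩
  · apply hinj
    show (A₀.map e.symm * A₀.conjTranspose.map e.symm).map e = (1 : Matrix _ _ _).map e
    rw [← RingEquiv.coe_toRingHom, Matrix.map_mul, Matrix.map_one _ (map_zero _) (map_one _)]
    rw [RingEquiv.coe_toRingHom, hback, hback, hA]
  · apply hinj
    show (B₀.map e.symm * B₀.conjTranspose.map e.symm).map e = (1 : Matrix _ _ _).map e
    rw [← RingEquiv.coe_toRingHom, Matrix.map_mul, Matrix.map_one _ (map_zero _) (map_one _)]
    rw [RingEquiv.coe_toRingHom, hback, hback, hB]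
  · refine ⟨?_, fun hr => absurd hr (InfinitePlace.not_isReal_iff_isComplex.2 hw)⟩
    rw [hmap, hback, hA]
  · refine ⟨?_, fun hr => absurd hr (InfinitePlace.not_isReal_iff_isComplex.2 hw)⟩
    rw [hmap, hback, hB]
  · apply hinj
    show ((cInf724 w g).adjugate).map e = (A₀.map e.symm * cInf724 w g * B₀.map e.symm).map e
    have h1 : ((cInf724 w g).adjugate).map e = ((cInf724 w g).map e).adjugate := by
      have := RingHom.map_adjugate (e : w.Completion →+* ℂ) (cInf724 w g)
      simpa [RingHom.mapMatrix_apply] using this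
    rw [h1, hadj]
    rw [← RingEquiv.coe_toRingHom, Matrix.map_mul, Matrix.map_mul, RingEquiv.coe_toRingHom,
      hback, hback]

/-- the local choice at a real place -/
theorem exists_real724 (hReal : LocRealC724) (g : G K) (w : InfinitePlace K) (hw : w.IsReal) :
    ∃ A A' B B' : Matrix (Fin 2) (Fin 2) w.Completion,
      A * A' = 1 ∧ B * B' = 1 ∧ UnitaryC724 w A ∧ UnitaryC724 w B ∧
      (cInf724 w g).adjugate = A * cInf724 w g * B := by
  set e : w.Completion ≃+* ℝ := InfinitePlace.Completion.ringEquivRealOfIsReal hw with he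
  have hee : ∀ x : w.Completion,
      InfinitePlace.Completion.extensionEmbedding w x = ((e x : ℝ) : ℂ) :=
    fun x => (InfinitePlace.Completion.extensionEmbeddingOfIsReal_apply hw x).symm
  have hmap : ∀ X : Matrix (Fin 2) (Fin 2) w.Completion,
      X.map (InfinitePlace.Completion.extensionEmbedding w)
        = (X.map e).map (Complex.ofRealHom) := by
    intro X
    ext i j : 1
    exact hee (X i j)
  have hback : ∀ X : Matrix (Fin 2) (Fin 2) ℝ, (X.map e.symm).map e = X := by
    intro X
    ext i j : 1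
    simp
  have hdet : ((cInf724 w g).map e).det ≠ 0 := by
    have : ((cInf724 w g).map e).det = e ((cInf724 w g).det) := by
      rw [← RingEquiv.coe_toRingHom, ← RingHom.mapMatrix_apply, ← RingHom.map_det]
    rw [this]
    exact fun h => det_cInf_ne_zero724 w g ((map_eq_zero_iff e e.injective).1 h)
  obtain ⟨A₀, B₀, hA, hAd, hB, hBd, hadj⟩ := hReal ((cInf724 w g).map e) hdet
  have hinj : Function.Injective
      (fun X : Matrix (Fin 2) (Fin 2) w.Completion => X.map e) :=
    Matrix.map_injective e.injective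
  have huni : ∀ X : Matrix (Fin 2) (Fin 2) ℝ, X * X.transpose = 1 → X.det = 1 →
      UnitaryC724 w (X.map e.symm) := by
    intro X hX hXd
    have hct : (X.map Complex.ofRealHom).conjTranspose = X.transpose.map Complex.ofRealHom := by
      ext i j : 1
      simp [Matrix.conjTranspose_apply]
    refine ⟨?_, fun _ => ?_⟩
    · rw [hmap, hback, hct, ← Matrix.map_mul, hX, Matrix.map_one _ (map_zero _) (map_one _)]
    · rw [hmap, hback]
      have : (X.map Complex.ofRealHom).det = Complex.ofRealHom X.det := by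
        rw [← RingHom.mapMatrix_apply, ← RingHom.map_det]
      rw [this, hXd, map_one]
  refine ⟨A₀.map e.symm, A₀.transpose.map e.symm, B₀.map e.symm,
    B₀.transpose.map e.symm, ?_, ?_, huni A₀ hA hAd, huni B₀ hB hBd, ?_⟩
  · apply hinj
    show (A₀.map e.symm * A₀.transpose.map e.symm).map e = (1 : Matrix _ _ _).map e
    rw [← RingEquiv.coe_toRingHom, Matrix.map_mul, Matrix.map_one _ (map_zero _) (map_one _)]
    rw [RingEquiv.coe_toRingHom, hback, hback, hA]
  · apply hinj
    show (B₀.map e.symm * B₀.transpose.map e.symm).map e = (1 : Matrix _ _ _).map e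
    rw [← RingEquiv.coe_toRingHom, Matrix.map_mul, Matrix.map_one _ (map_zero _) (map_one _)]
    rw [RingEquiv.coe_toRingHom, hback, hback, hB]
  · apply hinj
    show ((cInf724 w g).adjugate).map e = (A₀.map e.symm * cInf724 w g * B₀.map e.symm).map e
    have h1 : ((cInf724 w g).adjugate).map e = ((cInf724 w g).map e).adjugate := by
      have := RingHom.map_adjugate (e : w.Completion →+* ℝ) (cInf724 w g)
      simpa [RingHom.mapMatrix_apply] using this
    rw [h1, hadj]
    rw [← RingEquiv.coe_toRingHom, Matrix.map_mul, Matrix.map_mul, RingEquiv.coe_toRingHom,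
      hback, hback]

/-- the local choice at an infinite place -/
theorem exists_inf724 (hCpx : LocCpxC724) (hReal : LocRealC724) (g : G K)
    (w : InfinitePlace K) :
    ∃ A A' B B' : Matrix (Fin 2) (Fin 2) w.Completion,
      A * A' = 1 ∧ B * B' = 1 ∧ UnitaryC724 w A ∧ UnitaryC724 w B ∧
      (cInf724 w g).adjugate = A * cInf724 w g * B := by
  rcases InfinitePlace.isReal_or_isComplex w with hw | hw
  · exact exists_real724 hReal g w hw
  · exact exists_cpx724 hCpx g w hw

end InfChoice

/-! ## E. The assembly -/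

/-- **T2.02d.5d GLUE.** -/
theorem glueC724 (K : Type) [Field K] [NumberField K] : GlueC724 K := by
  intro hFin hCpx hReal 𝔫 _ g hg
  choose Af Af' Bf Bf' hAf hBf hAcl hBcl hef using exists_fin724 hFin 𝔫 g hg
  choose AI AI' BI BI' hAI hBI hAu hBu heI using exists_inf724 hCpx hReal g
  have iA : ∀ v i j, Valued.v (Af v i j) ≤ 1 := fun v => int_of_inCl724 (hAcl v).1
  have iA' : ∀ v i j, Valued.v (Af' v i j) ≤ 1 := fun v => int_of_inCl724 (hAcl v).2
  have iB : ∀ v i j, Valued.v (Bf v i j) ≤ 1 := fun v => int_of_inCl724 (hBcl v).1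
  have iB' : ∀ v i j, Valued.v (Bf' v i j) ≤ 1 := fun v => int_of_inCl724 (hBcl v).2
  let a : G K := mkG724 AI AI' Af Af' iA iA' hAI hAf
  let b : G K := mkG724 BI BI' Bf Bf' iB iB' hBI hBf
  have ha : a ∈ kGroup724 𝔫 := by
    refine mem_kGroup_of_comps724 𝔫 Finset.univ a ?_ ?_ (fun w hw => absurd (Finset.mem_univ w) hw)
    · intro v i j
      exact ⟨(hAcl v).1 i j, (hAcl v).2 i j⟩
    · intro w _
      exact hAu w
  have hb : b ∈ kGroup724 𝔫 := by
    refine mem_kGroup_of_comps724 𝔫 Finset.univ b ?_ ?_ (fun w hw => absurd (Finset.mem_univ w) hw)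
    · intro v i j
      exact ⟨(hBcl v).1 i j, (hBcl v).2 i j⟩
    · intro w _
      exact hBu w
  refine ⟨a, ha, b, hb, g_ext724 (fun w => ?_) (fun v => ?_)⟩
  · rw [cInf_adjG724, cInf_mul724, cInf_mul724]
    exact heI w
  · rw [finComp_adjG724, finComp_mul724, finComp_mul724]
    exact hef v

end Fermat.Agent.LT.T2.H724
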