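import Mathlib
import Fermat.Agent.LT.T2.H724.CommSpec
import Fermat.Agent.LT.T2.H724.Glue
import Fermat.Agent.LT.T2.H323.ConvKer
import Fermat.Agent.LT.T2.H833.ConvShape
import Fermat.Agent.LT.T2.H286.AdjMeas
import Fermat.Agent.LT.T2.H473.ConvSwap
import Fermat.Agent.LT.T2.H570.LocFin
import Fermat.Agent.LT.T2.H8.LocCpx
import Fermat.Agent.LT.T2.H437.LocReal
import Fermat.Agent.LT.T2.H228.ConvSpec

/-!
# Row LT, tower T2, leaf T2.02d (`Leaf02d`): CLOSED (helper724, integrator of registry row 976)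

OFF-MAIN.  Convolutions by spherical test functions commute on the cusp functions (the last clause
of `T2.ConvCusp`), by Gelfand's trick with the anti-involution `g ↦ adj g = det g • g⁻¹`.

All inputs are byte-identical copies of the registered files:

| sub-leaf | registry | seat | file | theorem |
|---|---|---|---|---|
| FUBINI   | 1077 | helper323 | `LT/T2/H323/ConvKer.lean`   | `convKerC323` |
| SHAPE    | 1078 | helper833 | `LT/T2/H833/ConvShape.lean` | `convShapeC833` |
| MEASURE  | 1079 | helper286 | `LT/T2/H286/AdjMeas.lean`   | `adjMeasC286` |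
| SWAP     | 1080 | helper473 | `LT/T2/H473/ConvSwap.lean`  | `convSwapC473` |
| LOC-FIN  | 1081 | helper570 | `LT/T2/H570/LocFin.lean`    | `leafLocFin570` |
| LOC-CPX  | 1082 | helper8   | `LT/T2/H8/LocCpx.lean`      | `locCpxC724_h8` |
| LOC-REAL | 1083 | helper437 | `LT/T2/H437/LocReal.lean`   | `locRealC724_holds437` |
| GLUE     | 1084 | helper724 | `LT/T2/H724/Glue.lean`      | `glueC724` |

The only hypothesis left is `T1.T1Out K` (tower T1), exactly as in `H228.Leaf02d`.
-/

set_option autoImplicit false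

open IsDedekindDomain NumberField MeasureTheory AutomorphicForm
open Fermat.Agent.LT.H556.A0

noncomputable section

namespace Fermat.Agent.LT.T2.H724

open Fermat.Agent.LT.T2

variable (K : Type) [Field K] [NumberField K]

/-- Every unit at the bad places lies in the double coset of its adjugate, unconditionally. -/
theorem doubleCosetC724 : DoubleCosetC724 K :=
  glueC724 K (H570.leafLocFin570 K) H8.locCpxC724_h8 H437.locRealC724_holds437

/-- **T2.02d, closed**: convolutions by spherical test functions commute on the cusp functions. -/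
theorem convComm724 (hT1 : T1.T1Out K) (𝔫 : Ideal (𝓞 K)) (h𝔫 : 𝔫 ≠ ⊥) (F : Frame K)
    (f₁ f₂ φ : G K → ℂ) (h₁ : IsSphTestFn 𝔫 f₁) (h₂ : IsSphTestFn 𝔫 f₂) (hφ : IsCuspFn 𝔫 φ) :
    conv F f₁ (conv F f₂ φ) = conv F f₂ (conv F f₁ φ) :=
  convComm_of_leaves724 (H323.convKerC323 K) (H833.convShapeC833 K) (H286.adjMeasC286 K)
    (H473.convSwapC473 (K := K)) (H570.leafLocFin570 K) H8.locCpxC724_h8 H437.locRealC724_holds437
    (glueC724 K) hT1 𝔫 h𝔫 F f₁ f₂ φ h₁ h₂ hφ

/-- **Registry row 976 = `H228.Leaf02d K`**, in helper228's bytes. -/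
theorem leaf02d_724 : H228.Leaf02d K :=
  fun hT1 𝔫 h𝔫 _ _ F f₁ f₂ φ h₁ h₂ hφ => convComm724 K hT1 𝔫 h𝔫 F f₁ f₂ φ h₁ h₂ hφ

end Fermat.Agent.LT.T2.H724

end
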